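import Fermat.Agent.DS.Cheb.Weight
import Fermat.Agent.Density.Euler

/-!
# Ideal class sums as smoothed element sums

`hasSum_class` rewrites a sum over the ideals in a class `C` as a sum over the nonzero elements of
an ideal `J` in the inverse class, weighted by `weight K`, divided by the number of roots of unity.
With `J = 1` this bounds the basic element sum `latSum K s = ∑' β, gs K s β` by a multiple of
`1 / (s - 1)` as `s → 1⁺` (`latSum_bound`). Also here: norms are nonnegative over totally complex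
fields, so `absNorm (span {α}) = N α` (`absNorm_span_int`), and respect congruences (`norm_congr`).
-/

set_option autoImplicit false
set_option linter.unusedSectionVars false

noncomputable section

open NumberField NumberField.Units
open scoped nonZeroDivisors ComplexConjugate
open FLTAgent.Density (normRpow idealZeta)

namespace FLTAgent.DS.Cheb

variable (K : Type*) [Field K] [NumberField K]

theorem absNorm_span_cast (α : 𝓞 K) :
    ((Ideal.absNorm (Ideal.span {α}) : ℕ) : ℝ) = normR K (α : K) := by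
  rw [Ideal.absNorm_span_singleton, normR, ← Algebra.coe_norm_int, Rat.cast_intCast,
    Nat.cast_natAbs, Int.cast_abs]

theorem ideal_absNorm_pos {I : Ideal (𝓞 K)} (hI : I ≠ ⊥) : 0 < Ideal.absNorm I :=
  Nat.pos_of_ne_zero fun h => hI (Ideal.absNorm_eq_zero_iff.mp h)

/-- The nonzero ideals in an ideal class. -/
abbrev ClassFiber (C : ClassGroup (𝓞 K)) :=
  {I : (Ideal (𝓞 K))⁰ // ClassGroup.mk0 I = C}

theorem hasSum_prod_weight {A B : Type*} (w : A → B → ℝ) (hw : ∀ a b, 0 ≤ w a b) (F : A → ℂ)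
    (T : ℕ) (hu : ∀ a, HasSum (w a) (T : ℝ)) (hF : Summable F) :
    HasSum (fun p : A × B => (w p.1 p.2 : ℂ) * F p.1) ((T : ℂ) * ∑' a, F a) := by
  have hs : Summable fun p : A × B => (w p.1 p.2 : ℂ) * F p.1 := by
    refine Summable.of_norm ?_
    have he : ∀ p : A × B, ‖(w p.1 p.2 : ℂ) * F p.1‖ = w p.1 p.2 * ‖F p.1‖ := fun p => by
      rw [norm_mul, Complex.norm_of_nonneg (hw _ _)]
    simp_rw [he]
    rw [summable_prod_of_nonneg fun p => mul_nonneg (hw _ _) (norm_nonneg _)]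
    exact ⟨fun a => (hu a).summable.mul_right ‖F a‖, (hF.norm.mul_left (T : ℝ)).congr
      fun a => ((hu a).mul_right ‖F a‖).tsum_eq.symm⟩
  have h : HasSum (fun a => ((T : ℝ) : ℂ) * F a) (∑' p : A × B, (w p.1 p.2 : ℂ) * F p.1) :=
    HasSum.prod_fiberwise hs.hasSum fun a =>
      (Complex.hasSum_ofReal.mpr (hu a)).mul_right (F a)
  simp only [Complex.ofReal_natCast] at h
  rw [(hF.hasSum.mul_left (T : ℂ)).unique h]
  exact hs.hasSum

/-- Decomposition of a weighted element sum along the ideals of a class. -/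
theorem hasSum_class (C : ClassGroup (𝓞 K)) (J : (Ideal (𝓞 K))⁰)
    (hJ : ClassGroup.mk0 J = C⁻¹) (H : 𝓞 K → ℂ) (F : Ideal (𝓞 K) → ℂ)
    (hHF : ∀ (α : 𝓞 K) (I : Ideal (𝓞 K)), α ≠ 0 → Ideal.span {α} = I * J → H α = F I)
    (hsum : Summable fun I : ClassFiber K C => F I.1) :
    HasSum (fun α : {α : 𝓞 K // α ∈ (J : Ideal (𝓞 K)) ∧ α ≠ 0} =>
      (weight K (α.1 : K) : ℂ) * H α.1)
      ((torsionOrder K : ℂ) * ∑' I : ClassFiber K C, F I.1) := by
  classical
  have hJ0 : (J : Ideal (𝓞 K)) ≠ ⊥ := nonZeroDivisors.ne_zero J.2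
  have hgen : ∀ I : ClassFiber K C, ∃ γ : 𝓞 K,
      (I.1 : Ideal (𝓞 K)) * J = Ideal.span {γ} ∧ γ ≠ 0 := by
    intro I
    have h : ClassGroup.mk0 (I.1 * J) = 1 := by rw [map_mul, I.2, hJ, mul_inv_cancel]
    obtain ⟨γ, hγ⟩ := ((ClassGroup.mk0_eq_one_iff (I.1 * J).2).mp h).principal
    refine ⟨γ, hγ, fun h0 => ?_⟩
    have := nonZeroDivisors.ne_zero (I.1 * J).2
    rw [h0] at hγ
    apply this
    rw [hγ]
    simp
  choose γ hγ hγ0 using hgen
  let Φ : ClassFiber K C × (𝓞 K)ˣ → {α : 𝓞 K // α ∈ (J : Ideal (𝓞 K)) ∧ α ≠ 0} := fun p =>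
    ⟨(p.2 : 𝓞 K) * γ p.1, Ideal.mul_mem_left _ _ (by
        have : γ p.1 ∈ (p.1.1 : Ideal (𝓞 K)) * J := by
          rw [hγ]; exact Ideal.mem_span_singleton_self _
        exact (Ideal.mul_le.mpr fun r _ t ht => Ideal.mul_mem_left _ r ht) this), mul_ne_zero (Units.ne_zero _) (hγ0 _)⟩
  have hspan : ∀ p, Ideal.span {(Φ p).1} = (p.1.1 : Ideal (𝓞 K)) * J := fun p => by
    simp only [Φ]
    rw [Ideal.span_singleton_mul_left_unit p.2.isUnit, hγ]
  have hΦ : Function.Bijective Φ := by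
    constructor
    · intro p p' h
      have h1 := hspan p
      rw [h, hspan p'] at h1
      have h2 : p.1 = p'.1 := Subtype.ext (Subtype.ext (mul_right_cancel₀ hJ0 h1).symm)
      have h3 := congrArg Subtype.val h
      simp only [Φ, h2] at h3
      exact Prod.ext h2 (Units.ext (mul_right_cancel₀ (hγ0 _) h3))
    · rintro ⟨α, hαJ, hα0⟩
      obtain ⟨I, hI⟩ := Ideal.dvd_iff_le.mpr ((Ideal.span_singleton_le_iff_mem _).mpr hαJ)
      have hI0 : I ≠ ⊥ := fun h => hα0 (by
        rw [h, Ideal.mul_bot, Ideal.span_singleton_eq_bot] at hI; exact hI)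
      have hI' : I ∈ (Ideal (𝓞 K))⁰ := mem_nonZeroDivisors_of_ne_zero hI0
      have hcl : ClassGroup.mk0 ⟨I, hI'⟩ = C := by
        have h1 : ClassGroup.mk0 (⟨I, hI'⟩ * J) = 1 := by
          rw [ClassGroup.mk0_eq_one_iff (⟨I, hI'⟩ * J).2]
          refine ⟨⟨α, ?_⟩⟩
          change I * (J : Ideal (𝓞 K)) = Ideal.span {α}
          rw [hI, mul_comm]
        rwa [map_mul, hJ, mul_inv_eq_one] at h1
      have hassoc : Associated (γ ⟨⟨I, hI'⟩, hcl⟩) α := by
        rw [← Ideal.span_singleton_eq_span_singleton, ← hγ, hI, mul_comm]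
      obtain ⟨u, hu⟩ := hassoc
      exact ⟨(⟨⟨I, hI'⟩, hcl⟩, u), Subtype.ext (by simp only [Φ]; rw [mul_comm, hu])⟩
  rw [← (Equiv.ofBijective Φ hΦ).hasSum_iff]
  have hfun : (fun α : {α : 𝓞 K // α ∈ (J : Ideal (𝓞 K)) ∧ α ≠ 0} =>
      (weight K (α.1 : K) : ℂ) * H α.1) ∘ (Equiv.ofBijective Φ hΦ) =
      fun p => (weight K (((p.2 : 𝓞 K) : K) * (γ p.1 : K)) : ℂ) * F p.1.1 := by
    funext p
    simp only [Function.comp, Equiv.ofBijective_apply]
    rw [hHF _ p.1.1 (Φ p).2.2 (hspan p)]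
    simp [Φ]
  rw [hfun]
  exact hasSum_prod_weight
    (fun (I : ClassFiber K C) (u : (𝓞 K)ˣ) => weight K (((u : 𝓞 K) : K) * (γ I : K)))
    (fun I u => weight_nonneg K _)
    (fun I => F I.1) (torsionOrder K)
    (fun I => hasSum_weight_units K (RingOfIntegers.coe_ne_zero_iff.mpr (hγ0 I))) hsum

/-- The basic element sum. -/
def latSum (s : ℝ) : ℝ := ∑' β : 𝓞 K, gs K s (β : K)

theorem latSum_nonneg (s : ℝ) : 0 ≤ latSum K s := tsum_nonneg fun _ => gs_nonneg K s _

theorem summable_classFiber {s : ℝ}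
    (hsum : Summable fun I : {I : Ideal (𝓞 K) // I ≠ ⊥} => normRpow K s I.1)
    (C : ClassGroup (𝓞 K)) :
    Summable fun I : ClassFiber K C => normRpow K s I.1 :=
  hsum.comp_injective (i := fun I : ClassFiber K C =>
      (⟨I.1.1, nonZeroDivisors.ne_zero I.1.2⟩ : {I : Ideal (𝓞 K) // I ≠ ⊥}))
    fun a b h => Subtype.ext (Subtype.ext ((congrArg Subtype.val h :)))

theorem latSum_bound : ∃ B : ℝ, ∀ᶠ s : ℝ in nhdsWithin 1 (Set.Ioi 1),
    Summable (fun I : {I : Ideal (𝓞 K) // I ≠ ⊥} => normRpow K s I.1) ∧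
    Summable (fun β : 𝓞 K => gs K s (β : K)) ∧ latSum K s ≤ B / (s - 1) := by
  obtain ⟨c, hc⟩ := Density.eventually_log_idealZeta K
  refine ⟨torsionOrder K * Real.exp c, ?_⟩
  filter_upwards [hc, self_mem_nhdsWithin] with s hs hs1
  have hs1' : (1 : ℝ) < s := hs1
  refine ⟨hs.1, ?_⟩
  let J : (Ideal (𝓞 K))⁰ := 1
  have hsumC := summable_classFiber K hs.1 1
  have h := hasSum_class K 1 J (by simp [J]) (fun α => ((normR K (α : K) ^ (-s) : ℝ) : ℂ))
    (fun I => ((normRpow K s I : ℝ) : ℂ)) (fun α I _ hI => by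
      simp only [J, Submonoid.coe_one, mul_one] at hI
      rw [← hI, Density.normRpow_apply, absNorm_span_cast])
    (Complex.summable_ofReal.mpr hsumC)
  have hfun : (fun α : {α : 𝓞 K // α ∈ (J : Ideal (𝓞 K)) ∧ α ≠ 0} =>
      (weight K (α.1 : K) : ℂ) * ((normR K (α.1 : K) ^ (-s) : ℝ) : ℂ)) =
      fun α => ((gs K s (α.1 : K) : ℝ) : ℂ) := by
    funext α; simp [gs]
  rw [hfun, ← Complex.ofReal_tsum, ← Complex.ofReal_natCast, ← Complex.ofReal_mul,
    Complex.hasSum_ofReal] at h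
  have hsupp : Function.support (fun β : 𝓞 K => gs K s (β : K)) ⊆
      {α : 𝓞 K | α ∈ (J : Ideal (𝓞 K)) ∧ α ≠ 0} := by
    intro β hβ
    refine ⟨by simp [J], fun h0 => hβ ?_⟩
    simp [h0, gs_zero K (by linarith : s ≠ 0)]
  have h' := (hasSum_subtype_iff_of_support_subset hsupp).mp h
  refine ⟨h'.summable, ?_⟩
  rw [latSum, h'.tsum_eq, mul_div_assoc]
  refine mul_le_mul_of_nonneg_left ?_ (Nat.cast_nonneg _)
  let e : ClassFiber K (1 : ClassGroup (𝓞 K)) → {I : Ideal (𝓞 K) // I ≠ ⊥} :=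
    fun I => ⟨I.1.1, nonZeroDivisors.ne_zero I.1.2⟩
  have hle : ∑' I : ClassFiber K (1 : ClassGroup (𝓞 K)), normRpow K s I.1 ≤ idealZeta K s :=
    tsum_comp_le_tsum_of_inj hs.1 (fun I => Density.normRpow_nonneg K s _) (i := e)
      fun a b h => Subtype.ext (Subtype.ext (congrArg Subtype.val h :))
  refine hle.trans ?_
  have h3 := (abs_le.mp hs.2.2).2
  have h4 : Real.log (idealZeta K s) ≤ c + Real.log (1 / (s - 1)) := by linarith
  rw [Real.log_le_iff_le_exp hs.2.1, Real.exp_add, Real.exp_log (by positivity)] at h4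
  rwa [mul_one_div] at h4

section TotallyComplex

variable [IsTotallyComplex K]

theorem norm_nonneg_of_isTotallyComplex (x : K) : 0 ≤ Algebra.norm ℚ x := by
  classical
  have hfib : ∀ w : InfinitePlace K, ∏ φ ∈ Finset.univ.filter
      (fun φ : K →+* ℂ => InfinitePlace.mk φ = w), φ x = ((w x ^ 2 : ℝ) : ℂ) := by
    intro w
    set φ := w.embedding
    have hne : φ ≠ ComplexEmbedding.conjugate φ := fun h =>
      IsTotallyComplex.complexEmbedding_not_isReal φ (ComplexEmbedding.isReal_iff.mpr h.symm)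
    have hset : Finset.univ.filter (fun ψ : K →+* ℂ => InfinitePlace.mk ψ = w) =
        {φ, ComplexEmbedding.conjugate φ} := by
      ext ψ
      simp only [Finset.mem_filter, Finset.mem_univ, true_and, Finset.mem_insert,
        Finset.mem_singleton]
      rw [← InfinitePlace.mk_embedding w, InfinitePlace.mk_eq_iff]
      constructor
      · rintro (h | h)
        · exact Or.inl h
        · exact Or.inr (RingHom.ext fun y => by
            have h' : conj (ψ y) = φ y := RingHom.congr_fun h y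
            rw [ComplexEmbedding.conjugate_coe_eq, ← h', Complex.conj_conj])
      · rintro (h | h)
        · exact Or.inl h
        · exact Or.inr (RingHom.ext fun y => by
            rw [ComplexEmbedding.conjugate_coe_eq, h, ComplexEmbedding.conjugate_coe_eq,
              Complex.conj_conj])
    rw [hset, Finset.prod_pair hne, ComplexEmbedding.conjugate_coe_eq, Complex.mul_conj,
      Complex.normSq_eq_norm_sq, InfinitePlace.norm_embedding_eq]
  have h1 : ((Algebra.norm ℚ x : ℚ) : ℂ) = ((∏ w : InfinitePlace K, w x ^ 2 : ℝ) : ℂ) := by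
    rw [Complex.ofReal_prod, ← Finset.prod_congr rfl (fun w _ => hfib w)]
    rw [Finset.prod_fiberwise Finset.univ InfinitePlace.mk fun φ : K →+* ℂ => φ x, ← eq_ratCast (algebraMap ℚ ℂ), Algebra.norm_eq_prod_embeddings ℚ ℂ]
    exact (Fintype.prod_equiv (RingHom.equivRatAlgHom K ℂ) _ _ fun φ => by simp).symm
  rw [← Complex.ofReal_ratCast, Complex.ofReal_inj] at h1
  have : (0 : ℝ) ≤ (Algebra.norm ℚ x : ℚ) := by
    rw [h1]; exact Finset.prod_nonneg fun w _ => sq_nonneg _
  exact_mod_cast this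

theorem absNorm_span_int (α : 𝓞 K) :
    ((Ideal.absNorm (Ideal.span {α}) : ℕ) : ℤ) = Algebra.norm ℤ α := by
  rw [Ideal.absNorm_span_singleton, Int.natAbs_of_nonneg]
  have h := norm_nonneg_of_isTotallyComplex K (α : K)
  rw [← Algebra.coe_norm_int] at h
  exact_mod_cast h

end TotallyComplex

theorem norm_congr (q : ℕ) {α α' : 𝓞 K} (h : α - α' ∈ Ideal.span {(q : 𝓞 K)}) :
    ((Algebra.norm ℤ α : ℤ) : ZMod q) = ((Algebra.norm ℤ α' : ℤ) : ZMod q) := by
  classical
  obtain ⟨t, ht⟩ := Ideal.mem_span_singleton.mp h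
  set b := RingOfIntegers.basis K
  rw [Algebra.norm_eq_matrix_det b, Algebra.norm_eq_matrix_det b,
    ← eq_intCast (Int.castRingHom (ZMod q)), ← eq_intCast (Int.castRingHom (ZMod q)),
    RingHom.map_det, RingHom.map_det]
  congr 1
  have h2 : Algebra.leftMulMatrix b α = Algebra.leftMulMatrix b α' +
      (q : ℤ) • Algebra.leftMulMatrix b t := by
    rw [← map_zsmul, ← map_add]
    congr 1
    rw [zsmul_eq_mul, Int.cast_natCast, ← ht]
    ring
  rw [h2, map_add]
  convert add_zero _ using 2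
  ext i j
  simp only [RingHom.mapMatrix_apply, Matrix.map_apply, Matrix.smul_apply, smul_eq_mul]
  push_cast
  simp

end FLTAgent.DS.Cheb
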