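import Fermat.Agent.DS.Cheb.ClassSum

/-!
# Boundedness near `1` of the twisted zeta function

For a totally complex number field `K` and a Dirichlet character `χ` modulo a prime `q`,
`chiN K χ I = χ (N I)`. The partial series `classL` of each ideal class is a main term, a multiple
of `resSum K χ * latSum K s`, plus a bounded error (`classL_eq`). The main terms cancel over the
class group once some ideal `P` prime to `q` has `χ (N P) ≠ 1` (`sum_class_chiN_eq_zero`), so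
`∑' I, χ (N I) * N I ^ (-s)` is bounded as `s → 1⁺` (`exists_bound_twistedZeta`).
-/

set_option autoImplicit false
set_option linter.unusedSectionVars false

noncomputable section

open NumberField NumberField.Units IsDedekindDomain
open scoped nonZeroDivisors
open FLTAgent.Density (normRpow idealZeta)

namespace FLTAgent.DS.Cheb

variable (K : Type*) [Field K] [NumberField K]

/-- Residue class of a norm. -/
def normMod (q : ℕ) (α : 𝓞 K) : ZMod q := ((Algebra.norm ℤ α : ℤ) : ZMod q)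

theorem normMod_congr {q : ℕ} {α α' : 𝓞 K} (h : α - α' ∈ Ideal.span {(q : 𝓞 K)}) :
    normMod K q α = normMod K q α' := norm_congr K q h

theorem finite_quot_natCast {m : ℕ} (hm : m ≠ 0) :
    Finite (𝓞 K ⧸ Ideal.span {(m : 𝓞 K)}) :=
  Ideal.finiteQuotientOfFreeOfNeBot _
    (fun h => hm (Nat.cast_eq_zero.mp (Ideal.span_singleton_eq_bot.mp h)))

theorem card_quot_natCast (m : ℕ) :
    Nat.card (𝓞 K ⧸ Ideal.span {(m : 𝓞 K)}) = m ^ deg K := by
  have h := Ideal.absNorm_span_natCast (S := 𝓞 K) m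
  rw [Ideal.absNorm_apply, Submodule.cardQuot_apply, RingOfIntegers.rank] at h
  exact h

/-- Every class contains the inverse of an ideal prime to `q`. -/
theorem exists_rep_prime_to {q : ℕ} (hq : q ≠ 0) (hq1q : q ≠ 1) (C : ClassGroup (𝓞 K)) :
    ∃ J : (Ideal (𝓞 K))⁰, ClassGroup.mk0 J = C⁻¹ ∧
      (J : Ideal (𝓞 K)) ⊔ Ideal.span {(q : 𝓞 K)} = ⊤ := by
  obtain ⟨⟨I, hI⟩, rfl⟩ := ClassGroup.mk0_surjective C
  set Q : Ideal (𝓞 K) := Ideal.span {(q : 𝓞 K)}
  have hI0 : I ≠ ⊥ := nonZeroDivisors.ne_zero hI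
  have hQ0 : Q ≠ ⊥ := fun h => hq (Nat.cast_eq_zero.mp (Ideal.span_singleton_eq_bot.mp h))
  obtain ⟨x, hx⟩ : ∃ x : 𝓞 K, I = Ideal.span {x} ⊔ Q * I := by
    obtain ⟨z, hz, hz0⟩ := Submodule.exists_mem_ne_zero_of_ne_bot (mul_ne_zero hQ0 hI0)
    obtain ⟨y, hy⟩ := IsDedekindDomain.exists_eq_span_pair (Ideal.mul_le_right hz) hz0
    refine ⟨y, le_antisymm ?_ (sup_le ?_ Ideal.mul_le_right)⟩
    · conv_lhs => rw [hy]
      rw [Ideal.span_le, Set.insert_subset_iff, Set.singleton_subset_iff]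
      exact ⟨Ideal.mem_sup_right hz, Ideal.mem_sup_left (Ideal.mem_span_singleton_self y)⟩
    · rw [hy]
      exact Ideal.span_mono (by simp)
  have hxI : Ideal.span {x} ≤ I := by rw [hx]; exact le_sup_left
  obtain ⟨J, hJ⟩ := Ideal.dvd_iff_le.mpr hxI
  have htop : J ⊔ Q = ⊤ := by
    refine mul_left_cancel₀ hI0 ?_
    rw [Ideal.mul_sup, ← hJ, mul_comm I Q, ← hx, Ideal.mul_top]
  have hJ0 : J ≠ ⊥ := by
    rintro rfl
    rw [bot_sup_eq] at htop
    rw [Ideal.mul_bot, Ideal.span_singleton_eq_bot] at hJ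
    subst hJ
    have hq1 := congrArg Ideal.absNorm htop
    rw [Ideal.absNorm_span_natCast, Ideal.absNorm_top, RingOfIntegers.rank,
      pow_eq_one_iff_left Module.finrank_pos.ne'] at hq1
    exact hq1q hq1
  exact ⟨⟨J, mem_nonZeroDivisors_of_ne_zero hJ0⟩, eq_inv_of_mul_eq_one_right (by
    rw [← map_mul, ClassGroup.mk0_eq_one_iff]
    exact ⟨⟨x, hJ.symm⟩⟩), htop⟩

variable {q : ℕ} [Fact q.Prime] (χ : DirichletCharacter ℂ q)

/-- The character on ideals. -/
def chiN (I : Ideal (𝓞 K)) : ℂ := χ ((Ideal.absNorm I : ℕ) : ZMod q)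

theorem norm_chiN_le (I : Ideal (𝓞 K)) : ‖chiN K χ I‖ ≤ 1 := DirichletCharacter.norm_le_one χ _

/-- The character sum over residues modulo `q`. -/
def resSum : ℂ :=
  ∑ᶠ r : 𝓞 K ⧸ Ideal.span {(q : 𝓞 K)}, χ (normMod K q (Quotient.out r))

variable [IsTotallyComplex K]

theorem chiN_span (α : 𝓞 K) : chiN K χ (Ideal.span {α}) = χ (normMod K q α) := by
  rw [chiN, normMod, ← absNorm_span_int K α, Int.cast_natCast]

theorem absNorm_ne_zero_mod {J : Ideal (𝓞 K)} (h : J ⊔ Ideal.span {(q : 𝓞 K)} = ⊤) :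
    ((Ideal.absNorm J : ℕ) : ZMod q) ≠ 0 := by
  obtain ⟨x, hx, y, hy, hxy⟩ := Submodule.mem_sup.mp
    ((Ideal.eq_top_iff_one _).mp h)
  intro h0
  have h1 : normMod K q x = 1 := by
    have : normMod K q x = normMod K q 1 := normMod_congr K (by
      rw [show x - 1 = -y by rw [← hxy]; ring]
      exact neg_mem hy)
    rw [this, normMod, map_one, Int.cast_one]
  have hd : (Ideal.absNorm J : ℤ) ∣ Algebra.norm ℤ x := by
    rw [← absNorm_span_int K x, Int.natCast_dvd_natCast]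
    exact Ideal.absNorm_dvd_absNorm_of_le ((Ideal.span_singleton_le_iff_mem J).mpr hx)
  obtain ⟨t, ht⟩ := hd
  rw [normMod, ht, Int.cast_mul, Int.cast_natCast, h0, zero_mul] at h1
  exact zero_ne_one h1

/-- A nonvanishing residue sum makes the character trivial on principal ideals prime to `q`. -/
theorem chiN_span_eq_one (hS : resSum K χ ≠ 0) {γ : 𝓞 K}
    (hγ : Ideal.span {γ} ⊔ Ideal.span {(q : 𝓞 K)} = ⊤) : chiN K χ (Ideal.span {γ}) = 1 := by
  set Q := Ideal.span {(q : 𝓞 K)}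
  haveI := finite_quot_natCast K (Fact.out : q.Prime).ne_zero
  haveI := Fintype.ofFinite (𝓞 K ⧸ Q)
  have hu : IsUnit (Ideal.Quotient.mk Q γ) := by
    obtain ⟨a, ha, b, hb, hab⟩ := Submodule.mem_sup.mp ((Ideal.eq_top_iff_one _).mp hγ)
    obtain ⟨c, rfl⟩ := Ideal.mem_span_singleton'.mp ha
    refine IsUnit.of_mul_eq_one (Ideal.Quotient.mk Q c) ?_
    rw [← map_mul, ← map_one (Ideal.Quotient.mk Q), Ideal.Quotient.eq,
      show γ * c - 1 = -b by rw [← hab]; ring]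
    exact neg_mem hb
  have hS' : resSum K χ = ∑ r : 𝓞 K ⧸ Q, χ (normMod K q (Quotient.out r)) :=
    finsum_eq_sum_of_fintype _
  rw [chiN_span]
  have hmul : χ (normMod K q γ) * resSum K χ = resSum K χ := by
    rw [hS', Finset.mul_sum]
    refine Fintype.sum_equiv hu.unit.mulLeft _ _ fun r => ?_
    rw [← map_mul, normMod, normMod, ← Int.cast_mul, ← map_mul]
    refine congrArg χ (normMod_congr K ?_)
    rw [← Ideal.Quotient.eq, map_mul, Units.mulLeft_apply]
    simp [Ideal.Quotient.mk_out, Q]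
  exact (mul_left_eq_self₀.mp hmul).resolve_right hS

theorem sum_class_chiN_eq_zero (hS : resSum K χ ≠ 0)
    (J : ClassGroup (𝓞 K) → (Ideal (𝓞 K))⁰) (hJ : ∀ C, ClassGroup.mk0 (J C) = C⁻¹)
    (hJq : ∀ C, (J C : Ideal (𝓞 K)) ⊔ Ideal.span {(q : 𝓞 K)} = ⊤)
    (P : (Ideal (𝓞 K))⁰) (hPq : (P : Ideal (𝓞 K)) ⊔ Ideal.span {(q : 𝓞 K)} = ⊤)
    (hP : chiN K χ P ≠ 1) :
    ∑ C, (chiN K χ (J C))⁻¹ = 0 := by
  set c := ClassGroup.mk0 P with hc
  have hmul : ∀ A B : Ideal (𝓞 K), chiN K χ (A * B) = chiN K χ A * chiN K χ B := fun A B => by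
    simp [chiN, map_mul]
  have key : ∀ C, chiN K χ (J C) * chiN K χ P = chiN K χ (J (C * c⁻¹)) := by
    intro C
    set D := C⁻¹ * c with hD
    have h1 : ClassGroup.mk0 (J C * P * J D) = 1 := by
      rw [map_mul, map_mul, hJ, hJ, hD, ← hc]
      simp [mul_comm, mul_left_comm]
    have h2 : ClassGroup.mk0 (J (C * c⁻¹) * J D) = 1 := by
      rw [map_mul, hJ, hJ, hD, mul_inv_rev, mul_inv_rev, inv_inv, inv_inv]
      simp [mul_comm, mul_left_comm]
    have hco : ∀ A B : Ideal (𝓞 K), A ⊔ Ideal.span {(q : 𝓞 K)} = ⊤ →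
        B ⊔ Ideal.span {(q : 𝓞 K)} = ⊤ → A * B ⊔ Ideal.span {(q : 𝓞 K)} = ⊤ :=
      fun A B hA hB => by
        rw [← Ideal.isCoprime_iff_sup_eq] at hA hB ⊢
        exact hA.mul_left hB
    obtain ⟨γ, hγ⟩ := ((ClassGroup.mk0_eq_one_iff (J C * P * J D).2).mp h1).principal
    obtain ⟨γ', hγ'⟩ := ((ClassGroup.mk0_eq_one_iff (J (C * c⁻¹) * J D).2).mp h2).principal
    rw [Ideal.submodule_span_eq] at hγ hγ'
    have e1 := chiN_span_eq_one K χ hS (γ := γ) (by
      rw [← hγ]; exact hco _ _ (hco _ _ (hJq C) hPq) (hJq D))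
    have e2 := chiN_span_eq_one K χ hS (γ := γ') (by
      rw [← hγ']; exact hco _ _ (hJq _) (hJq D))
    rw [← hγ, Submonoid.coe_mul, Submonoid.coe_mul, hmul, hmul] at e1
    rw [← hγ', Submonoid.coe_mul, hmul] at e2
    exact mul_right_cancel₀ (right_ne_zero_of_mul_eq_one e2) (e1.trans e2.symm)
  have h3 : (chiN K χ P)⁻¹ * ∑ C, (chiN K χ (J C))⁻¹ = ∑ C, (chiN K χ (J C))⁻¹ := by
    rw [Finset.mul_sum]
    refine Fintype.sum_equiv (Equiv.mulRight c⁻¹) _ _ fun C => ?_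
    rw [Equiv.coe_mulRight, ← key, mul_inv, mul_comm]
  exact (mul_left_eq_self₀.mp h3).resolve_left (inv_ne_one.mpr hP)

omit [IsTotallyComplex K] in
/-- Counting residues in `J` over residues modulo `q`. -/
theorem sum_residues {m : ℕ} (hm : m ≠ 0) (hqm : q ∣ m) {J : Ideal (𝓞 K)}
    (hmJ : (m : 𝓞 K) ∈ J) (hJq : J ⊔ Ideal.span {(q : 𝓞 K)} = ⊤)
    [Fintype (𝓞 K ⧸ Ideal.span {(m : 𝓞 K)})] [DecidablePred (· ∈ J)] :
    ∃ c : ℕ, c * q ^ deg K * Ideal.absNorm J = m ^ deg K ∧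
      (∑ a : 𝓞 K ⧸ Ideal.span {(m : 𝓞 K)},
        if Quotient.out a ∈ J then χ (normMod K q (Quotient.out a)) else 0) =
        c * resSum K χ := by
  classical
  set M := Ideal.span {(m : 𝓞 K)} with hM
  set Q := Ideal.span {(q : 𝓞 K)} with hQ
  haveI := finite_quot_natCast K (Fact.out : q.Prime).ne_zero
  haveI := Fintype.ofFinite (𝓞 K ⧸ Q)
  have hMQ : M ≤ Q := by
    rw [hM, hQ, Ideal.span_singleton_le_span_singleton]; exact Nat.cast_dvd_cast hqm
  have hMJ : M ≤ J := (Ideal.span_singleton_le_iff_mem J).mpr hmJ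
  set JM := (J.map (Ideal.Quotient.mk M)).toAddSubgroup with hJM
  have hmem : ∀ a : 𝓞 K ⧸ M, a ∈ JM ↔ Quotient.out a ∈ J := by
    intro a
    conv_lhs => rw [← Ideal.Quotient.mk_out a]
    rw [hJM, Submodule.mem_toAddSubgroup, ← Ideal.mem_comap,
      Ideal.comap_map_of_surjective _ Ideal.Quotient.mk_surjective, ← RingHom.ker_eq_comap_bot,
      Ideal.mk_ker, sup_eq_left.mpr hMJ]
  let f : JM →+ (𝓞 K ⧸ Q) :=
    ((Ideal.Quotient.factor hMQ).toAddMonoidHom).comp JM.subtype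
  have hsurj : ∀ b, b ∈ f.range := by
    intro b
    obtain ⟨x, rfl⟩ := Ideal.Quotient.mk_surjective b
    obtain ⟨y, hy, z, hz, hyz⟩ := Submodule.mem_sup.mp
      (hJq.symm ▸ Submodule.mem_top : x ∈ J ⊔ Q)
    exact ⟨⟨Ideal.Quotient.mk M y, Ideal.mem_map_of_mem _ hy⟩, by
      change Ideal.Quotient.factor hMQ (Ideal.Quotient.mk M y) = _
      rw [Ideal.Quotient.factor_mk, Ideal.Quotient.eq, ← hyz, sub_add_cancel_left]
      exact neg_mem hz⟩
  refine ⟨Nat.card f.ker, ?_, ?_⟩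
  · have h1 : Nat.card JM = Nat.card f.ker * q ^ deg K := by
      rw [← f.ker.index_mul_card, AddSubgroup.index_ker, mul_comm, ← card_quot_natCast K q,
        show f.range = ⊤ from eq_top_iff.mpr fun b _ => hsurj b, AddSubgroup.card_top]
    have h2 : Nat.card JM * Ideal.absNorm J = m ^ deg K := by
      rw [← card_quot_natCast K m, Ideal.absNorm_apply, Submodule.cardQuot_apply,
        ← JM.index_mul_card, mul_comm]
      congr 1
      rw [AddSubgroup.index, hJM]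
      exact Nat.card_congr
        ((DoubleQuot.quotQuotEquivQuotOfLE hMJ).symm.toEquiv)
    rw [← h1, h2]
  · rw [← Finset.sum_filter, resSum, finsum_eq_sum_of_fintype, Finset.mul_sum]
    rw [Finset.sum_subtype _ (p := fun a => a ∈ JM) (fun a => by simp [hmem])]
    rw [← Finset.sum_fiberwise_of_maps_to (t := Finset.univ) (g := fun a : JM => f a)
      (fun _ _ => Finset.mem_univ _)]
    refine Finset.sum_congr rfl fun b _ => ?_
    rw [Finset.sum_congr rfl (g := fun _ => χ (normMod K q (Quotient.out b))) (fun a ha => by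
      refine congrArg χ (normMod_congr K ?_)
      rw [← Ideal.Quotient.eq, Ideal.Quotient.mk_out, ← (Finset.mem_filter.mp ha).2]
      change _ = Ideal.Quotient.factor hMQ (a : 𝓞 K ⧸ M)
      conv_rhs => rw [← Ideal.Quotient.mk_out (a : 𝓞 K ⧸ M)]
      rw [Ideal.Quotient.factor_mk]), Finset.sum_const, nsmul_eq_mul]
    congr 1
    have h0 := AddMonoidHom.card_fiber_eq_of_mem_range f (hsurj b)
      (show (0 : 𝓞 K ⧸ Q) ∈ f.range from zero_mem _)
    rw [h0, Nat.card_eq_fintype_card, Fintype.card_subtype]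
    simp [AddMonoidHom.mem_ker]

/-- The partial Dirichlet series of an ideal class. -/
def classL (s : ℝ) (C : ClassGroup (𝓞 K)) : ℂ :=
  ∑' I : ClassFiber K C, chiN K χ I.1 * (normRpow K s I.1 : ℂ)

theorem classL_eq (C : ClassGroup (𝓞 K)) (J : (Ideal (𝓞 K))⁰)
    (hJ : ClassGroup.mk0 J = C⁻¹) (hJq : (J : Ideal (𝓞 K)) ⊔ Ideal.span {(q : 𝓞 K)} = ⊤) :
    ∃ B : ℝ, ∀ᶠ s : ℝ in nhdsWithin 1 (Set.Ioi 1),
      ‖(torsionOrder K : ℂ) * classL K χ s C -
        (chiN K χ J)⁻¹ * resSum K χ * ((((q : ℝ) ^ deg K)⁻¹ : ℝ) : ℂ) * (latSum K s : ℂ)‖ ≤ B := by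
  classical
  have hq : q.Prime := Fact.out
  set NJ := Ideal.absNorm (J : Ideal (𝓞 K)) with hNJ
  have hNJ0 : 0 < NJ := ideal_absNorm_pos K (nonZeroDivisors.ne_zero J.2)
  have hcJ : chiN K χ J ≠ 0 := by
    rw [chiN]
    exact (IsUnit.map χ (isUnit_iff_ne_zero.mpr (absNorm_ne_zero_mod K hJq))).ne_zero
  set m := q * NJ with hm
  have hm0 : m ≠ 0 := mul_ne_zero hq.ne_zero hNJ0.ne'
  have hmJ : (m : 𝓞 K) ∈ (J : Ideal (𝓞 K)) := by
    rw [hm, Nat.cast_mul]; exact Ideal.mul_mem_left _ _ (Ideal.absNorm_mem _)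
  set M := Ideal.span {(m : 𝓞 K)} with hM
  haveI := finite_quot_natCast K hm0
  haveI := Fintype.ofFinite (𝓞 K ⧸ M)
  set g : 𝓞 K → ℂ := fun α => if α ∈ (J : Ideal (𝓞 K)) then χ (normMod K q α) else 0 with hg
  have hgle : ∀ α, ‖g α‖ ≤ 1 := fun α => by
    simp only [hg]; split_ifs
    · exact DirichletCharacter.norm_le_one χ _
    · simp
  have hgper : ∀ (a : 𝓞 K ⧸ M) (β : 𝓞 K),
      g (Quotient.out a + m * β) = g (Quotient.out a) := by
    intro a β
    have h1 : (m : 𝓞 K) * β ∈ (J : Ideal (𝓞 K)) := Ideal.mul_mem_right _ _ hmJ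
    simp only [hg, (J : Ideal (𝓞 K)).add_mem_iff_left h1]
    split_ifs
    · refine congrArg χ (normMod_congr K ?_)
      rw [add_sub_cancel_left, Ideal.mem_span_singleton, hm, Nat.cast_mul, mul_assoc]
      exact dvd_mul_right _ _
    · rfl
  choose B hB using fun a : 𝓞 K ⧸ M => exists_translate_bound K (Quotient.out a) hm0
  obtain ⟨T, hT⟩ := latSum_bound K
  obtain ⟨c, hc, hcsum⟩ := sum_residues K χ hm0 (dvd_mul_right q NJ) hmJ hJq
  set ρ : ℝ := (NJ : ℝ) / (m : ℝ) ^ deg K with hρ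
  have hρ0 : 0 < ρ := div_pos (by exact_mod_cast hNJ0)
    (pow_pos (by exact_mod_cast Nat.pos_of_ne_zero hm0) _)
  set Lρ := |Real.log ρ| * Real.exp |Real.log ρ|
  refine ⟨‖(chiN K χ J)⁻¹‖ * ((NJ : ℝ) ^ (2 : ℝ) * (∑ a, B a) +
    ‖resSum K χ‖ * ((q : ℝ) ^ deg K)⁻¹ * (Lρ * T)), ?_⟩
  filter_upwards [hT, Ioo_mem_nhdsGT (show (1 : ℝ) < 2 by norm_num)] with s hs hs12
  obtain ⟨hsI, hsO, hlat⟩ := hs
  obtain ⟨hs1, hs2⟩ := hs12
  set G : 𝓞 K → ℂ := fun α => g α * (gs K s (α : K) : ℂ) with hG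
  have hsumF : Summable fun I : ClassFiber K C => chiN K χ I.1 * (normRpow K s I.1 : ℂ) := by
    refine Summable.of_norm_bounded (summable_classFiber K hsI C) fun I => ?_
    rw [norm_mul, Complex.norm_of_nonneg (Density.normRpow_nonneg K s _)]
    exact mul_le_of_le_one_left (Density.normRpow_nonneg K s _) (norm_chiN_le K χ _)
  have hcls := hasSum_class K C J hJ
    (fun α => (chiN K χ J)⁻¹ * ((NJ : ℝ) ^ s : ℝ) *
      (χ (normMod K q α) * ((normR K (α : K) ^ (-s) : ℝ) : ℂ)))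
    (fun I => chiN K χ I * (normRpow K s I : ℂ)) (fun α I _ hI => by
      have h1 : chiN K χ (Ideal.span {α}) = chiN K χ I * chiN K χ J := by
        simp [hI, chiN, map_mul]
      have h2 : normR K (α : K) = (Ideal.absNorm I : ℝ) * NJ := by
        rw [← absNorm_span_cast, hI, map_mul, Nat.cast_mul]
      rw [← chiN_span, h1, h2, Density.normRpow_apply,
        Real.mul_rpow (Nat.cast_nonneg _) (Nat.cast_nonneg _), Real.rpow_neg (Nat.cast_nonneg NJ),
        Complex.ofReal_mul, Complex.ofReal_inv]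
      have hN : (((NJ : ℝ) ^ s : ℝ) : ℂ) ≠ 0 := by
        exact_mod_cast (Real.rpow_pos_of_pos (by exact_mod_cast hNJ0) s).ne'
      field_simp)
    hsumF
  have hfun : (fun α : {α : 𝓞 K // α ∈ (J : Ideal (𝓞 K)) ∧ α ≠ 0} =>
      (weight K (α.1 : K) : ℂ) * ((chiN K χ J)⁻¹ * ((NJ : ℝ) ^ s : ℝ) *
        (χ (normMod K q α.1) * ((normR K (α.1 : K) ^ (-s) : ℝ) : ℂ)))) =
      fun α => (chiN K χ J)⁻¹ * ((NJ : ℝ) ^ s : ℝ) * G α.1 := by
    funext α
    simp [hG, hg, gs, α.2.1]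
    ring
  have hsupp : Function.support (fun α => (chiN K χ J)⁻¹ * ((NJ : ℝ) ^ s : ℝ) * G α) ⊆
      {α : 𝓞 K | α ∈ (J : Ideal (𝓞 K)) ∧ α ≠ 0} := by
    intro α hα
    refine ⟨?_, fun h0 => hα ?_⟩
    · by_contra h
      exact hα (by simp [hG, hg, h])
    · simp [hG, h0, gs_zero K (by linarith : s ≠ 0)]
  rw [hfun] at hcls
  have hall := (hasSum_subtype_iff_of_support_subset hsupp).mp hcls
  -- split along residues modulo `m`
  let e : (𝓞 K ⧸ M) × 𝓞 K → 𝓞 K := fun p => Quotient.out p.1 + m * p.2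
  have he : Function.Bijective e := by
    constructor
    · rintro ⟨a, b⟩ ⟨a', b'⟩ h
      simp only [e] at h
      have h1 : a = a' := by
        have h' := congrArg (Ideal.Quotient.mk M) h
        rwa [map_add, map_add, Ideal.Quotient.mk_out, Ideal.Quotient.mk_out, map_mul, map_mul,
          show Ideal.Quotient.mk M (m : 𝓞 K) = 0 from
            Ideal.Quotient.eq_zero_iff_mem.mpr (Ideal.mem_span_singleton_self _),
          zero_mul, zero_mul, add_zero, add_zero] at h'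
      subst h1
      rw [add_right_inj] at h
      exact Prod.ext rfl (mul_left_cancel₀ (Nat.cast_ne_zero.mpr hm0) h)
    · intro α
      have : α - Quotient.out (Ideal.Quotient.mk M α) ∈ M := by
        rw [← Ideal.Quotient.eq, Ideal.Quotient.mk_out]
      obtain ⟨b, hb⟩ := Ideal.mem_span_singleton.mp this
      exact ⟨(Ideal.Quotient.mk M α, b), by simp only [e]; rw [← hb]; ring⟩
  have hb : ∀ a : 𝓞 K ⧸ M, Summable (fun β => G (Quotient.out a + m * β)) ∧
      ∑' β, G (Quotient.out a + m * β) =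
        g (Quotient.out a) * ((∑' β, gs K s ((Quotient.out a + m * β : 𝓞 K) : K) : ℝ) : ℂ) := by
    intro a
    have h := hB a s hs1 hs2.le hsO
    simp only [hG, hgper a]
    refine ⟨(Complex.summable_ofReal.mpr h.1).mul_left _, ?_⟩
    rw [tsum_mul_left, Complex.ofReal_tsum]
  have htsum : ∑' α, G α = ∑ a : 𝓞 K ⧸ M,
      g (Quotient.out a) * ((∑' β, gs K s ((Quotient.out a + m * β : 𝓞 K) : K) : ℝ) : ℂ) := by
    have hGs : Summable G := by
      refine Summable.of_norm_bounded hsO fun α => ?_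
      rw [hG, norm_mul, Complex.norm_of_nonneg (gs_nonneg K s _)]
      exact mul_le_of_le_one_left (gs_nonneg K s _) (hgle α)
    rw [← (Equiv.ofBijective e he).tsum_eq G]
    refine Eq.trans (Summable.tsum_prod' (f := fun p => G (e p))
      ((Equiv.ofBijective e he).summable_iff.mpr hGs) (fun a => (hb a).1)) ?_
    rw [tsum_fintype]
    exact Finset.sum_congr rfl fun a _ => (hb a).2
  set μ := ((m : ℝ) ^ deg K) ^ (-s)
  have herr : ‖∑' α, G α - (c : ℂ) * resSum K χ * ((μ * latSum K s : ℝ) : ℂ)‖ ≤ ∑ a, B a := by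
    rw [htsum, ← hcsum, Finset.sum_mul, ← Finset.sum_sub_distrib]
    refine (norm_sum_le _ _).trans (Finset.sum_le_sum fun a _ => ?_)
    rw [show (if Quotient.out a ∈ (J : Ideal (𝓞 K)) then χ (normMod K q (Quotient.out a)) else 0)
      = g (Quotient.out a) from rfl, ← mul_sub, ← Complex.ofReal_sub, norm_mul, Complex.norm_real,
      Real.norm_eq_abs]
    exact (mul_le_of_le_one_left (abs_nonneg _) (hgle _)).trans (hB a s hs1 hs2.le hsO).2
  have hcoef : (NJ : ℝ) ^ s * ((c : ℝ) * μ) = ((q : ℝ) ^ deg K)⁻¹ * ρ ^ (s - 1) := by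
    have hM0 : (0 : ℝ) < (m : ℝ) ^ deg K := pow_pos (by exact_mod_cast Nat.pos_of_ne_zero hm0) _
    have hN0 : (0 : ℝ) < NJ := by exact_mod_cast hNJ0
    have hq0 : (0 : ℝ) < (q : ℝ) ^ deg K := pow_pos (by exact_mod_cast hq.pos) _
    have hc' : (c : ℝ) = (m : ℝ) ^ deg K / ((q : ℝ) ^ deg K * NJ) := by
      have h' : (c : ℝ) * (q : ℝ) ^ deg K * NJ = (m : ℝ) ^ deg K := by
        rw [hNJ]; exact_mod_cast hc
      rw [eq_div_iff (mul_pos hq0 hN0).ne', ← h']
      ring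
    rw [hc', hρ, Real.div_rpow hN0.le hM0.le, Real.rpow_sub_one hN0.ne',
      Real.rpow_sub_one hM0.ne']
    simp only [μ, Real.rpow_neg hM0.le]
    field_simp
  have hval := hall.tsum_eq
  rw [tsum_mul_left] at hval
  rw [classL, ← hval]
  rw [show (chiN K χ J)⁻¹ * ((NJ : ℝ) ^ s : ℝ) * ∑' α, G α -
      (chiN K χ J)⁻¹ * resSum K χ * ((((q : ℝ) ^ deg K)⁻¹ : ℝ) : ℂ) * (latSum K s : ℂ) =
      (chiN K χ J)⁻¹ * (((NJ : ℝ) ^ s : ℝ) *
        (∑' α, G α - (c : ℂ) * resSum K χ * ((μ * latSum K s : ℝ) : ℂ)) +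
      resSum K χ * ((((q : ℝ) ^ deg K)⁻¹ * (ρ ^ (s - 1) - 1) * latSum K s : ℝ) : ℂ)) from ?_]
  · rw [norm_mul]
    refine mul_le_mul_of_nonneg_left ((norm_add_le _ _).trans (add_le_add ?_ ?_)) (norm_nonneg _)
    · rw [norm_mul, Complex.norm_of_nonneg (Real.rpow_nonneg (Nat.cast_nonneg _) _)]
      exact mul_le_mul (Real.rpow_le_rpow_of_exponent_le (by exact_mod_cast hNJ0) hs2.le) herr
        (norm_nonneg _) (Real.rpow_nonneg (Nat.cast_nonneg _) _)
    · rw [norm_mul, Complex.norm_real, Real.norm_eq_abs, abs_mul, abs_mul]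
      simp only [mul_assoc]
      refine mul_le_mul_of_nonneg_left ?_ (norm_nonneg _)
      rw [abs_of_nonneg (by positivity : 0 ≤ ((q : ℝ) ^ deg K)⁻¹),
        abs_of_nonneg (latSum_nonneg K s)]
      refine mul_le_mul_of_nonneg_left ?_ (by positivity)
      calc |ρ ^ (s - 1) - 1| * latSum K s
          ≤ ((s - 1) * Lρ) * (T / (s - 1)) :=
            mul_le_mul (abs_rpow_sub_one_le hρ0 (by linarith) (by linarith)) hlat
              (latSum_nonneg K s) (mul_nonneg (by linarith) (by positivity))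
        _ = Lρ * T := by
            field_simp [sub_ne_zero.mpr hs1.ne']
  · have hcc := congrArg (fun x : ℝ => (x : ℂ)) hcoef
    push_cast at hcc ⊢
    linear_combination (chiN K χ J)⁻¹ * resSum K χ * (latSum K s : ℂ) * hcc

/-- **Boundedness of the twisted zeta function.** -/
theorem exists_bound_twistedZeta (P : (Ideal (𝓞 K))⁰)
    (hPq : (P : Ideal (𝓞 K)) ⊔ Ideal.span {(q : 𝓞 K)} = ⊤) (hP : chiN K χ P ≠ 1) :
    ∃ B : ℝ, ∀ᶠ s : ℝ in nhdsWithin 1 (Set.Ioi 1),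
      ‖∑' I : {I : Ideal (𝓞 K) // I ≠ ⊥}, chiN K χ I.1 * (normRpow K s I.1 : ℂ)‖ ≤ B := by
  classical
  have hq : q.Prime := Fact.out
  choose J hJ hJq using exists_rep_prime_to K hq.ne_zero hq.ne_one
  choose B hB using fun C => classL_eq K χ C (J C) (hJ C) (hJq C)
  obtain ⟨T, hT⟩ := latSum_bound K
  refine ⟨(torsionOrder K : ℝ)⁻¹ * ∑ C, B C, ?_⟩
  filter_upwards [hT, (Filter.eventually_all).mpr hB] with s hs hall
  have hw : (torsionOrder K : ℂ) ≠ 0 := Nat.cast_ne_zero.mpr (Units.torsionOrder_ne_zero K)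
  have hsum : Summable fun I : {I : Ideal (𝓞 K) // I ≠ ⊥} =>
      chiN K χ I.1 * (normRpow K s I.1 : ℂ) := by
    refine Summable.of_norm_bounded hs.1 fun I => ?_
    rw [norm_mul, Complex.norm_of_nonneg (Density.normRpow_nonneg K s _)]
    exact mul_le_of_le_one_left (Density.normRpow_nonneg K s _) (norm_chiN_le K χ _)
  have hmain : ∑ C, (chiN K χ (J C))⁻¹ * resSum K χ * ((((q : ℝ) ^ deg K)⁻¹ : ℝ) : ℂ) *
      (latSum K s : ℂ) = 0 := by
    rw [← Finset.sum_mul, ← Finset.sum_mul, ← Finset.sum_mul]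
    by_cases hS : resSum K χ = 0
    · simp [hS]
    · rw [sum_class_chiN_eq_zero K χ hS J hJ hJq P hPq hP]; simp
  let e : (Σ C : ClassGroup (𝓞 K), ClassFiber K C) ≃ {I : Ideal (𝓞 K) // I ≠ ⊥} :=
    (Equiv.sigmaFiberEquiv (fun I : (Ideal (𝓞 K))⁰ => ClassGroup.mk0 I)).trans
      (Equiv.subtypeEquivRight fun I => mem_nonZeroDivisors_iff_ne_zero)
  have hsplit : ∑' I : {I : Ideal (𝓞 K) // I ≠ ⊥}, chiN K χ I.1 * (normRpow K s I.1 : ℂ) =
      ∑ C, classL K χ s C := by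
    rw [← e.tsum_eq]
    refine Eq.trans (Summable.tsum_sigma' (fun C => ?_) (e.summable_iff.mpr hsum)) ?_
    swap
    rw [tsum_fintype]
    · rfl
    · exact (e.summable_iff.mpr hsum).sigma_factor C
  rw [hsplit, show ∑ C, classL K χ s C = (torsionOrder K : ℂ)⁻¹ *
    ∑ C, ((torsionOrder K : ℂ) * classL K χ s C -
      (chiN K χ (J C))⁻¹ * resSum K χ * ((((q : ℝ) ^ deg K)⁻¹ : ℝ) : ℂ) * (latSum K s : ℂ))
    from by
      rw [Finset.sum_sub_distrib, hmain, sub_zero, ← Finset.mul_sum, ← mul_assoc,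
        inv_mul_cancel₀ hw, one_mul],
    norm_mul, norm_inv, Complex.norm_natCast]
  exact mul_le_mul_of_nonneg_left ((norm_sum_le _ _).trans (Finset.sum_le_sum fun C _ => hall C))
    (by positivity)

end FLTAgent.DS.Cheb
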