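import Mathlib

/-!
# The tent function and elementary estimates

`tent x = max 0 (1 - |x|)` is the piecewise linear bump whose integer translates form a partition
of unity (`sum_tentPair`); `hasSum_prod_tent` is the product version over `ℤ^ι`. Its Lipschitz
bound and a few elementary inequalities for finite products, `log`, `exp` and real powers
(`abs_prod_sub_prod_le`, `abs_log_sub_log_le`, `abs_exp_sub_exp_le`, `abs_rpow_sub_one_le`)
are used to compare smoothed lattice sums with their translates.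
-/

set_option autoImplicit false

noncomputable section

namespace FLTAgent.DS.Cheb

/-- The tent function. -/
def tent (x : ℝ) : ℝ := max 0 (1 - |x|)

theorem tent_nonneg (x : ℝ) : 0 ≤ tent x := le_max_left _ _

theorem tent_le_one (x : ℝ) : tent x ≤ 1 :=
  max_le zero_le_one (by linarith [abs_nonneg x])

theorem abs_tent_sub_le (x y : ℝ) : |tent x - tent y| ≤ |x - y| := by
  refine (abs_max_sub_max_le_max _ _ _ _).trans (max_le (by simp) ?_)
  rw [sub_sub_sub_cancel_left, abs_sub_comm x y]
  exact abs_abs_sub_abs_le_abs_sub y x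

theorem tent_eq_zero {x : ℝ} (h : 1 ≤ |x|) : tent x = 0 := max_eq_left (by linarith)

theorem abs_lt_one_of_tent_ne_zero {x : ℝ} (h : tent x ≠ 0) : |x| < 1 := by
  by_contra hx
  exact h (tent_eq_zero (not_lt.mp hx))

/-- The two integers that can meet the support of a translated tent. -/
def tentPair (c : ℝ) : Finset ℤ := {-⌊c⌋, -⌊c⌋ - 1}

theorem tent_translate_eq_zero {c : ℝ} {n : ℤ} (h : n ∉ tentPair c) : tent (c + n) = 0 := by
  simp only [tentPair, Finset.mem_insert, Finset.mem_singleton, not_or] at h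
  refine tent_eq_zero (le_abs.mpr ?_)
  have h1 := Int.floor_le c
  have h2 := Int.lt_floor_add_one c
  rcases lt_trichotomy n (-⌊c⌋) with h3 | h3 | h3
  · right
    have : n ≤ -⌊c⌋ - 2 := by omega
    have : (n : ℝ) ≤ -⌊c⌋ - 2 := by exact_mod_cast this
    linarith
  · exact absurd h3 h.1
  · left
    have : -⌊c⌋ + 1 ≤ n := by omega
    have : -(⌊c⌋ : ℝ) + 1 ≤ n := by exact_mod_cast this
    linarith

theorem sum_tentPair (c : ℝ) : ∑ n ∈ tentPair c, tent (c + n) = 1 := by
  rw [tentPair, Finset.sum_insert (by simp [Finset.mem_singleton]; omega), Finset.sum_singleton]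
  have h1 := Int.floor_le c
  have h2 := Int.lt_floor_add_one c
  push_cast
  rw [tent, tent, abs_of_nonneg (show (0 : ℝ) ≤ c + -(⌊c⌋ : ℝ) by linarith),
    abs_of_nonpos (show c + (-(⌊c⌋ : ℝ) - 1) ≤ 0 by linarith), max_eq_right (by linarith),
    max_eq_right (by linarith)]
  ring

theorem hasSum_prod_tent {ι : Type*} [Fintype ι] (c : ι → ℝ) :
    HasSum (fun n : ι → ℤ => ∏ i, tent (c i + n i)) 1 := by
  classical
  have h : ∑ n ∈ Fintype.piFinset (fun i => tentPair (c i)), ∏ i, tent (c i + n i) = 1 := by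
    rw [← Finset.prod_univ_sum (fun i => tentPair (c i)) (fun i n => tent (c i + n)),
      Finset.prod_eq_one fun i _ => sum_tentPair (c i)]
  rw [← h]
  refine hasSum_sum_of_ne_finset_zero fun n hn => ?_
  simp only [Fintype.mem_piFinset, not_forall] at hn
  obtain ⟨i, hi⟩ := hn
  exact Finset.prod_eq_zero (Finset.mem_univ i) (tent_translate_eq_zero hi)

theorem abs_prod_sub_prod_le {ι : Type*} (s : Finset ι) (f g : ι → ℝ)
    (hf : ∀ i, 0 ≤ f i ∧ f i ≤ 1) (hg : ∀ i, 0 ≤ g i ∧ g i ≤ 1) :
    |∏ i ∈ s, f i - ∏ i ∈ s, g i| ≤ ∑ i ∈ s, |f i - g i| := by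
  classical
  induction s using Finset.induction_on with
  | empty => simp
  | insert a t ha ih =>
    rw [Finset.prod_insert ha, Finset.prod_insert ha, Finset.sum_insert ha,
      show f a * ∏ i ∈ t, f i - g a * ∏ i ∈ t, g i =
        (f a - g a) * ∏ i ∈ t, f i + g a * (∏ i ∈ t, f i - ∏ i ∈ t, g i) by ring]
    refine (abs_add_le _ _).trans (add_le_add ?_ ?_)
    · rw [abs_mul]
      refine mul_le_of_le_one_right (abs_nonneg _) ?_
      rw [abs_of_nonneg (Finset.prod_nonneg fun i _ => (hf i).1)]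
      exact Finset.prod_le_one (fun i _ => (hf i).1) fun i _ => (hf i).2
    · rw [abs_mul, abs_of_nonneg (hg a).1]
      exact (mul_le_of_le_one_left (abs_nonneg _) (hg a).2).trans ih

theorem abs_log_sub_log_le {t u v : ℝ} (ht : 0 < t) (hu : t ≤ u) (hv : t ≤ v) :
    |Real.log u - Real.log v| ≤ |u - v| / t := by
  have key : ∀ a b : ℝ, t ≤ a → t ≤ b → Real.log a - Real.log b ≤ |a - b| / t := by
    intro a b ha hb
    have ha' : 0 < a := ht.trans_le ha
    have hb' : 0 < b := ht.trans_le hb
    rw [← Real.log_div ha'.ne' hb'.ne']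
    refine (Real.log_le_sub_one_of_pos (div_pos ha' hb')).trans ?_
    rw [div_sub_one hb'.ne']
    exact (div_le_div_of_nonneg_right (le_abs_self _) hb'.le).trans
      (div_le_div_of_nonneg_left (abs_nonneg _) ht hb)
  rw [abs_sub_le_iff]
  exact ⟨key u v hu hv, abs_sub_comm u v ▸ key v u hv hu⟩

theorem abs_exp_sub_exp_le (a b : ℝ) :
    |Real.exp a - Real.exp b| ≤ max (Real.exp a) (Real.exp b) * |a - b| := by
  have key : ∀ x y : ℝ, Real.exp x - Real.exp y ≤ Real.exp x * |x - y| := by
    intro x y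
    have h : Real.exp y = Real.exp x * Real.exp (y - x) := by rw [← Real.exp_add]; ring_nf
    have h1 := Real.add_one_le_exp (y - x)
    have h2 : x - y ≤ |x - y| := le_abs_self _
    nlinarith [Real.exp_pos x]
  rw [abs_sub_le_iff]
  refine ⟨(key a b).trans ?_, (key b a).trans ?_⟩
  · exact mul_le_mul_of_nonneg_right (le_max_left _ _) (abs_nonneg _)
  · rw [abs_sub_comm]
    exact mul_le_mul_of_nonneg_right (le_max_right _ _) (abs_nonneg _)

theorem abs_rpow_sub_one_le {x t : ℝ} (hx : 0 < x) (ht : 0 ≤ t) (ht1 : t ≤ 1) :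
    |x ^ t - 1| ≤ t * (|Real.log x| * Real.exp |Real.log x|) := by
  have h := abs_exp_sub_exp_le (Real.log x * t) 0
  rw [← Real.rpow_def_of_pos hx, Real.exp_zero, sub_zero] at h
  refine h.trans ?_
  rw [abs_mul, abs_of_nonneg ht]
  have hm : max (x ^ t) 1 ≤ Real.exp |Real.log x| := by
    refine max_le ?_ (Real.one_le_exp (abs_nonneg _))
    rw [Real.rpow_def_of_pos hx, Real.exp_le_exp]
    calc Real.log x * t ≤ |Real.log x| * t := mul_le_mul_of_nonneg_right (le_abs_self _) ht
      _ ≤ |Real.log x| * 1 := mul_le_mul_of_nonneg_left ht1 (abs_nonneg _)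
      _ = |Real.log x| := mul_one _
  calc max (x ^ t) 1 * (|Real.log x| * t)
      ≤ Real.exp |Real.log x| * (|Real.log x| * t) :=
        mul_le_mul_of_nonneg_right hm (mul_nonneg (abs_nonneg _) ht)
    _ = _ := by ring

end FLTAgent.DS.Cheb
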