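import Fermat.Agent.DS.Cheb.Tent

/-!
# A smoothed fundamental domain for the units

For a number field `K`, `weight K x` is the product of tents of the coordinates of the
scale-invariant log vector `logVec K x` in a basis of fundamental units. Its sum over the units
is the number of roots of unity (`hasSum_weight_units`), and on its support all archimedean
absolute values are comparable (`exists_cone`). The summand is
`gs K s x = weight K x * normR K x ^ (-s)`; translating the lattice `𝓞 K` by `a + m * ·` changes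
`∑ gs` only by the factor `(m ^ deg K) ^ (-s)` and a bounded error (`exists_translate_bound`).
-/

set_option autoImplicit false
set_option linter.unusedSectionVars false

noncomputable section

open NumberField NumberField.InfinitePlace NumberField.Units
open NumberField.Units.dirichletUnitTheorem

namespace FLTAgent.DS.Cheb

variable (K : Type*) [Field K] [NumberField K]

open scoped Classical

/-- The absolute norm as a real number. -/
def normR (x : K) : ℝ := |((Algebra.norm ℚ x : ℚ) : ℝ)|

theorem normR_nonneg (x : K) : 0 ≤ normR K x := abs_nonneg _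

theorem normR_eq_prod (x : K) : normR K x = ∏ w : InfinitePlace K, w x ^ w.mult := by
  rw [InfinitePlace.prod_eq_abs_norm, normR, Rat.cast_abs]

theorem log_normR {x : K} (hx : x ≠ 0) :
    Real.log (normR K x) = ∑ w : InfinitePlace K, (w.mult : ℝ) * Real.log (w x) := by
  rw [normR_eq_prod, Real.log_prod]
  · exact Finset.sum_congr rfl fun w _ => Real.log_pow _ _
  · exact fun w _ => pow_ne_zero _ (fun h => hx ((map_eq_zero w).mp h))

theorem normR_pos {x : K} (hx : x ≠ 0) : 0 < normR K x := by
  rw [normR_eq_prod]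
  exact Finset.prod_pos fun w _ => pow_pos (InfinitePlace.pos_iff.mpr hx) _

/-- The degree. -/
abbrev deg : ℕ := Module.finrank ℚ K

theorem deg_pos : (0 : ℝ) < deg K := by exact_mod_cast Module.finrank_pos

theorem sum_mult_real : ∑ w : InfinitePlace K, (w.mult : ℝ) = deg K := by
  exact_mod_cast InfinitePlace.sum_mult_eq

/-- The scale invariant logarithmic vector. -/
def logVec (x : K) : {w : InfinitePlace K // w ≠ w₀} → ℝ :=
  fun w => (w.1.mult : ℝ) * (Real.log (w.1 x) - Real.log (normR K x) / deg K)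

/-- The basis of the log space given by fundamental units. -/
def logBasis : Module.Basis (Fin (rank K)) ℝ (logSpace K) :=
  (basisUnitLattice K).ofZLatticeBasis ℝ _

/-- Coordinates in that basis. -/
def coord (x : K) (i : Fin (rank K)) : ℝ := (logBasis K).equivFun (logVec K x) i

/-- The weight. -/
def weight (x : K) : ℝ := ∏ i, tent (coord K x i)

theorem weight_nonneg (x : K) : 0 ≤ weight K x := Finset.prod_nonneg fun _ _ => tent_nonneg _

theorem weight_le_one (x : K) : weight K x ≤ 1 :=
  Finset.prod_le_one (fun _ _ => tent_nonneg _) fun _ _ => tent_le_one _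

/-- The summand. -/
def gs (s : ℝ) (x : K) : ℝ := weight K x * normR K x ^ (-s)

theorem gs_nonneg (s : ℝ) (x : K) : 0 ≤ gs K s x :=
  mul_nonneg (weight_nonneg K x) (Real.rpow_nonneg (abs_nonneg _) _)

theorem gs_zero {s : ℝ} (hs : s ≠ 0) : gs K s 0 = 0 := by
  simp [gs, normR, Real.zero_rpow (neg_ne_zero.mpr hs)]

theorem place_natCast (w : InfinitePlace K) (m : ℕ) : w (m : K) = m := by
  rw [← InfinitePlace.mk_embedding w, InfinitePlace.apply, map_natCast, Complex.norm_natCast]

theorem normR_natCast_mul (m : ℕ) (x : K) :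
    normR K ((m : K) * x) = (m : ℝ) ^ deg K * normR K x := by
  rw [normR, map_mul, show (m : K) = algebraMap ℚ K m by simp, Algebra.norm_algebraMap]
  simp [normR, abs_mul]

theorem logVec_natCast_mul {m : ℕ} (hm : m ≠ 0) {x : K} (hx : x ≠ 0) :
    logVec K ((m : K) * x) = logVec K x := by
  funext w
  have hd := deg_pos K
  have hm' : (m : ℝ) ≠ 0 := by exact_mod_cast hm
  simp only [logVec]
  rw [map_mul, place_natCast, normR_natCast_mul,
    Real.log_mul hm' (InfinitePlace.pos_iff.mpr hx).ne',
    Real.log_mul (pow_ne_zero _ hm') (normR_pos K hx).ne', Real.log_pow]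
  field_simp
  ring

theorem gs_natCast_mul {m : ℕ} (hm : m ≠ 0) {s : ℝ} (hs : s ≠ 0) (x : K) :
    gs K s ((m : K) * x) = ((m : ℝ) ^ deg K) ^ (-s) * gs K s x := by
  rcases eq_or_ne x 0 with rfl | hx
  · simp [gs_zero K hs]
  · simp only [gs, weight, coord, logVec_natCast_mul K hm hx, normR_natCast_mul,
      Real.mul_rpow (pow_nonneg (Nat.cast_nonneg m) _) (normR_pos K hx).le]
    ring

theorem coord_unit_mul (u : (𝓞 K)ˣ) {x : K} (hx : x ≠ 0) :
    logVec K ((u : K) * x) = logEmbedding K (Additive.ofMul u) + logVec K x := by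
  funext w
  have hd := deg_pos K
  have hn : normR K ((u : K) * x) = normR K x := by
    rw [normR, map_mul, Rat.cast_mul, abs_mul]
    have : |((Algebra.norm ℚ (u : K) : ℚ) : ℝ)| = 1 := by
      have h := Units.norm K u
      rw [← Rat.cast_abs, h, Rat.cast_one]
    rw [this, one_mul, normR]
  simp only [logVec, Pi.add_apply, logEmbedding_component]
  rw [hn, map_mul, Real.log_mul (InfinitePlace.pos_iff.mpr (Units.coe_ne_zero u)).ne'
    (InfinitePlace.pos_iff.mpr hx).ne']
  ring

/-- The unit sum of the weight is the number of roots of unity. -/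
theorem hasSum_weight_units {x : K} (hx : x ≠ 0) :
    HasSum (fun u : (𝓞 K)ˣ => weight K ((u : K) * x)) (torsionOrder K) := by
  let f : torsion K × (Fin (rank K) → ℤ) → (𝓞 K)ˣ :=
    fun p => (p.1 : (𝓞 K)ˣ) * ∏ i, fundSystem K i ^ p.2 i
  have hf : Function.Bijective f := by
    refine ⟨fun p q h => ?_, fun u => ?_⟩
    · exact (exist_unique_eq_mul_prod K (f p)).unique rfl h
    · obtain ⟨p, hp, -⟩ := exist_unique_eq_mul_prod K u
      exact ⟨p, hp.symm⟩
  rw [← (Equiv.ofBijective f hf).hasSum_iff]
  have hfun : (fun u : (𝓞 K)ˣ => weight K ((u : K) * x)) ∘ (Equiv.ofBijective f hf) =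
      fun p : torsion K × (Fin (rank K) → ℤ) => ∏ i, tent (coord K x i + p.2 i) := by
    funext p
    simp only [Function.comp, Equiv.ofBijective_apply, weight, coord]
    refine Finset.prod_congr rfl fun i _ => ?_
    congr 1
    rw [coord_unit_mul K _ hx, map_add, Pi.add_apply, add_comm]
    congr 1
    have h0 : logEmbedding K (Additive.ofMul (p.1 : (𝓞 K)ˣ)) = 0 :=
      logEmbedding_eq_zero_iff.mpr p.1.2
    have h1 : logEmbedding K (Additive.ofMul (f p)) = ∑ j, (p.2 j : ℝ) • logBasis K j := by
      simp only [f, ofMul_mul, map_add, h0, zero_add, ofMul_prod, map_sum, ofMul_zpow, map_zsmul,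
        logEmbedding_fundSystem]
      refine Finset.sum_congr rfl fun j _ => ?_
      rw [Int.cast_smul_eq_zsmul, logBasis, Module.Basis.ofZLatticeBasis_apply]
    rw [h1, map_sum]
    simp [Module.Basis.equivFun_apply, Finsupp.single_apply, Finset.sum_apply]
  rw [hfun]
  haveI : Fintype (torsion K) := Fintype.ofFinite _
  have hT : (torsionOrder K : ℝ) = ∑ _ζ : torsion K, (1 : ℝ) := by
    rw [Finset.sum_const, nsmul_one, Finset.card_univ, torsionOrder, ← Nat.card_eq_fintype_card]
  rw [hT]
  have hs : Summable fun p : torsion K × (Fin (rank K) → ℤ) =>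
      ∏ i, tent (coord K x i + p.2 i) := by
    rw [summable_prod_of_nonneg fun p => Finset.prod_nonneg fun i _ => tent_nonneg _]
    exact ⟨fun _ => (hasSum_prod_tent _).summable, Summable.of_finite⟩
  have h := HasSum.prod_fiberwise hs.hasSum fun ζ => hasSum_prod_tent (coord K x)
  rw [← h.unique (hasSum_fintype fun _ : torsion K => (1 : ℝ))]
  exact hs.hasSum

/-- On the support of the weight all absolute values are comparable. -/
theorem exists_cone : ∃ κ : ℝ, 0 < κ ∧ ∀ x : K, x ≠ 0 → weight K x ≠ 0 →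
    ∀ w w' : InfinitePlace K, κ * w' x ≤ w x := by
  set B := ∑ j, ‖logBasis K j‖ with hB
  set R := (Fintype.card {w : InfinitePlace K // w ≠ w₀} : ℝ) * B + B with hR
  have hB0 : 0 ≤ B := Finset.sum_nonneg fun j _ => norm_nonneg _
  refine ⟨Real.exp (-(2 * R)), Real.exp_pos _, fun x hx hW w w' => ?_⟩
  have hc : ∀ i, |coord K x i| ≤ 1 := fun i =>
    (abs_lt_one_of_tent_ne_zero (Finset.prod_ne_zero_iff.mp hW i (Finset.mem_univ i))).le
  have hv : ‖logVec K x‖ ≤ B := by
    rw [← (logBasis K).sum_equivFun (logVec K x), hB]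
    refine (norm_sum_le _ _).trans (Finset.sum_le_sum fun j _ => ?_)
    rw [norm_smul]
    exact mul_le_of_le_one_left (norm_nonneg _) (hc j)
  set L := Real.log (normR K x) / deg K with hL
  have hm : ∀ v : InfinitePlace K, (1 : ℝ) ≤ v.mult := fun v => by
    exact_mod_cast InfinitePlace.one_le_mult
  have key : ∀ v : InfinitePlace K, |(v.mult : ℝ) * (Real.log (v x) - L)| ≤ R := by
    intro v
    by_cases hv0 : v = w₀
    · subst hv0
      have hzero : ∑ u : InfinitePlace K, (u.mult : ℝ) * (Real.log (u x) - L) = 0 := by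
        simp only [mul_sub, Finset.sum_sub_distrib, ← Finset.sum_mul, ← log_normR K hx,
          sum_mult_real]
        rw [hL]
        field_simp [(deg_pos K).ne']
        ring
      rw [Fintype.sum_eq_add_sum_subtype_ne _ w₀, add_eq_zero_iff_eq_neg] at hzero
      rw [hzero, abs_neg]
      refine (Finset.abs_sum_le_sum_abs _ _).trans (le_trans (Finset.sum_le_sum
        (g := fun _ => B) fun u _ => (norm_le_pi_norm (logVec K x) u).trans hv) ?_)
      rw [Finset.sum_const, nsmul_eq_mul, Finset.card_univ, hR]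
      linarith
    · refine ((norm_le_pi_norm (logVec K x) ⟨v, hv0⟩).trans hv).trans ?_
      rw [hR]
      nlinarith [Nat.cast_nonneg (α := ℝ) (Fintype.card {w : InfinitePlace K // w ≠ w₀})]
  have key' : ∀ v : InfinitePlace K, |Real.log (v x) - L| ≤ R := by
    intro v
    refine le_trans ?_ (key v)
    rw [abs_mul, abs_of_nonneg (zero_le_one.trans (hm v))]
    exact le_mul_of_one_le_left (abs_nonneg _) (hm v)
  have hp : ∀ v : InfinitePlace K, 0 < v x := fun v => InfinitePlace.pos_iff.mpr hx
  rw [← Real.exp_log (hp w'), ← Real.exp_log (hp w), ← Real.exp_add, Real.exp_le_exp]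
  have := abs_le.mp (key' w)
  have := abs_le.mp (key' w')
  linarith

/-- The size of an element. -/
def size (x : K) : ℝ := ‖mixedEmbedding K x‖

theorem size_nonneg (x : K) : 0 ≤ size K x := norm_nonneg _

theorem place_le_size (w : InfinitePlace K) (x : K) : w x ≤ size K x := by
  rw [size, mixedEmbedding.norm_eq_sup'_normAtPlace, ← mixedEmbedding.normAtPlace_apply w x]
  exact Finset.le_sup' (fun w => mixedEmbedding.normAtPlace w (mixedEmbedding K x))
    (Finset.mem_univ w)

theorem exists_place_eq_size (x : K) : ∃ w : InfinitePlace K, size K x = w x := by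
  rw [size, mixedEmbedding.norm_eq_sup'_normAtPlace]
  obtain ⟨w, -, hw⟩ := Finset.exists_mem_eq_sup' (Finset.univ_nonempty (α := InfinitePlace K))
    (fun w => mixedEmbedding.normAtPlace w (mixedEmbedding K x))
  exact ⟨w, by rw [hw, mixedEmbedding.normAtPlace_apply]⟩

theorem abs_place_sub_le (w : InfinitePlace K) (x y : K) : |w x - w y| ≤ w (x - y) := by
  rw [abs_sub_le_iff]
  refine ⟨w.1.le_sub x y, ?_⟩
  rw [show w (x - y) = w (y - x) by rw [← neg_sub]; exact w.1.map_neg _]
  exact w.1.le_sub y x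

theorem summable_size :
    Summable fun β : 𝓞 K => size K (β : K) ^ (-((deg K : ℝ) + 1)) := by
  have hfin : Module.finrank ℤ (mixedEmbedding.integerLattice K) = deg K :=
    (ZLattice.rank ℝ (mixedEmbedding.integerLattice K)).trans (mixedEmbedding.finrank K)
  have h := ZLattice.summable_norm_rpow (mixedEmbedding.integerLattice K) (-((deg K : ℝ) + 1))
    (by rw [hfin]; linarith)
  let e : 𝓞 K → mixedEmbedding.integerLattice K :=
    fun β => ⟨mixedEmbedding K (algebraMap (𝓞 K) K β), ⟨β, rfl⟩⟩
  have he : Function.Injective e := fun a b hab =>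
    RingOfIntegers.ext (mixedEmbedding_injective K (congrArg Subtype.val hab))
  have h' := h.comp_injective he
  simp only [Function.comp_def] at h'
  exact h'

theorem exists_coord_lip : ∃ C : ℝ, 0 ≤ C ∧ ∀ x y : K,
    |weight K x - weight K y| ≤ C * ‖logVec K x - logVec K y‖ := by
  set f := ((logBasis K).equivFun.toLinearMap).toContinuousLinearMap with hf
  refine ⟨rank K * ‖f‖, by positivity, fun x y => ?_⟩
  refine (abs_prod_sub_prod_le _ _ _ (fun i => ⟨tent_nonneg _, tent_le_one _⟩)
    (fun i => ⟨tent_nonneg _, tent_le_one _⟩)).trans ?_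
  refine (Finset.sum_le_card_nsmul _ _ (‖f‖ * ‖logVec K x - logVec K y‖) fun i _ => ?_).trans
    (le_of_eq ?_)
  · refine (abs_tent_sub_le _ _).trans ?_
    refine le_trans (le_of_eq ?_) ((norm_le_pi_norm (f (logVec K x - logVec K y)) i).trans
      (f.le_opNorm _))
    simp [hf, coord, Real.norm_eq_abs]
  · simp [mul_assoc]

/-- Translation changes the summand little. -/
theorem exists_pointwise (a : K) : ∃ C R : ℝ, 0 ≤ C ∧ 1 ≤ R ∧ ∀ s : ℝ, 1 < s → s ≤ 2 →
    ∀ x : K, R ≤ size K x → |gs K s (x + a) - gs K s x| ≤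
      C * size K x ^ (-((deg K : ℝ) + 1)) := by
  obtain ⟨κ, hκ, hcone⟩ := exists_cone K
  obtain ⟨CW, hCW, hlip⟩ := exists_coord_lip K
  set A := size K a with hA
  have hA0 : 0 ≤ A := norm_nonneg _
  set κ' := min κ 1 / 3 with hκ'
  have hκ'0 : 0 < κ' := by positivity
  have hκ'1 : κ' ≤ κ := by
    rw [hκ']; linarith [min_le_left κ 1, lt_min hκ zero_lt_one]
  have hd := deg_pos K
  set E := A / κ' with hE
  set D := (deg K : ℝ) with hD
  have hE0 : 0 ≤ E := by positivity
  refine ⟨(CW * (D * (E + E)) + 2 * D * E) * max 1 (κ' ^ (-2 * D)),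
    A / κ' + 1, by positivity, by linarith, fun s hs1 hs2 x hx => ?_⟩
  set S := size K x with hS
  clear_value κ' E D S
  have hS1 : 1 ≤ S := le_trans (by linarith) hx
  have hS0 : 0 < S := zero_lt_one.trans_le hS1
  have hAS : A ≤ κ' * S := by
    have h : E ≤ S := by linarith
    rw [hE, div_le_iff₀ hκ'0] at h
    linarith
  set y := x + a with hy
  have hdiff : ∀ w : InfinitePlace K, |w y - w x| ≤ A := fun w => by
    refine (abs_place_sub_le K w y x).trans ?_
    rw [hy, add_sub_cancel_left]
    exact hA ▸ place_le_size K w a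
  by_cases h0 : (x ≠ 0 ∧ weight K x ≠ 0) ∨ (y ≠ 0 ∧ weight K y ≠ 0)
  swap
  · push_neg at h0
    have hz : ∀ z : K, (z ≠ 0 → weight K z = 0) → gs K s z = 0 := fun z hz => by
      rcases eq_or_ne z 0 with rfl | h
      · exact gs_zero K (by linarith)
      · simp [gs, hz h]
    rw [hz x h0.1, hz y h0.2, sub_zero, abs_zero]
    positivity
  set t := κ' * S with ht
  clear_value t
  have ht0 : 0 < t := ht ▸ mul_pos hκ'0 hS0
  obtain ⟨w1, hw1⟩ := exists_place_eq_size K x
  have hmin : min κ 1 = 3 * κ' := by rw [hκ']; ring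
  have hlow : ∀ w : InfinitePlace K, t ≤ w x ∧ t ≤ w y := by
    intro w
    have hd1 := abs_le.mp (hdiff w)
    have hd1' := abs_le.mp (hdiff w1)
    have hk1 : min κ 1 ≤ κ := min_le_left _ _
    have hk2 : min κ 1 ≤ 1 := min_le_right _ _
    rcases h0 with ⟨hx0, hWx⟩ | ⟨hy0, hWy⟩
    · have h := hcone x hx0 hWx w w1
      rw [← hw1, ← hS] at h
      have h3 : 3 * κ' * S ≤ w x := (mul_le_mul_of_nonneg_right (hmin ▸ hk1) hS0.le).trans h
      have h7 := mul_pos hκ'0 hS0
      exact ⟨by linarith, by linarith⟩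
    · have h := hcone y hy0 hWy w w1
      have h4 : S - A ≤ w1 y := by rw [hS, hw1]; linarith
      have h6 : 0 ≤ S - A := by
        linarith [mul_le_of_le_one_left hS0.le (by linarith : κ' ≤ 1)]
      have h5 : 3 * κ' * (S - A) ≤ w y := (mul_le_mul (hmin ▸ hk1) h4 h6 hκ.le).trans h
      have h7 := mul_le_mul_of_nonneg_left hAS (show (0 : ℝ) ≤ 3 * κ' by linarith)
      have h8 := mul_le_of_le_one_left ht0.le (show 3 * κ' ≤ 1 by linarith)
      have h9 : 3 * κ' * (S - A) = 3 * (κ' * S) - 3 * κ' * A := by ring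
      exact ⟨by linarith, by linarith⟩
  have hx0 : x ≠ 0 := fun h => by
    have := (hlow w1).1
    rw [h, map_zero] at this
    linarith
  have hy0 : y ≠ 0 := fun h => by
    have := (hlow w1).2
    rw [h, map_zero] at this
    linarith
  have hlog : ∀ w : InfinitePlace K, |Real.log (w y) - Real.log (w x)| ≤ E / S := fun w => by
    refine (abs_log_sub_log_le ht0 (hlow w).2 (hlow w).1).trans ?_
    rw [ht, hE, div_div]
    exact div_le_div_of_nonneg_right (hdiff w) (by positivity)
  have hES : 0 ≤ E / S := by positivity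
  have hlogN : |Real.log (normR K y) - Real.log (normR K x)| ≤ D * (E / S) := by
    rw [log_normR K hy0, log_normR K hx0, ← Finset.sum_sub_distrib, hD, ← sum_mult_real,
      Finset.sum_mul]
    refine (Finset.abs_sum_le_sum_abs _ _).trans (Finset.sum_le_sum fun w _ => ?_)
    rw [← mul_sub, abs_mul, Nat.abs_cast]
    exact mul_le_mul_of_nonneg_left (hlog w) (Nat.cast_nonneg _)
  have hvec : ‖logVec K y - logVec K x‖ ≤ D * ((E + E) / S) := by
    refine (pi_norm_le_iff_of_nonneg (by positivity)).mpr fun w => ?_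
    rw [Real.norm_eq_abs, Pi.sub_apply, logVec, logVec, ← mul_sub, abs_mul, Nat.abs_cast]
    have hmd : (w.1.mult : ℝ) ≤ D := by
      rw [hD, ← sum_mult_real]
      exact Finset.single_le_sum (fun u _ => (Nat.cast_nonneg u.mult : (0 : ℝ) ≤ _)) (Finset.mem_univ w.1)
    refine mul_le_mul hmd ?_ (abs_nonneg _) hd.le
    rw [sub_sub_sub_comm, add_div]
    refine (abs_sub _ _).trans (add_le_add (hlog w.1) ?_)
    rw [← sub_div, abs_div, ← hD, abs_of_pos hd, div_le_iff₀ hd]
    linarith
  set M := max 1 (κ' ^ (-2 * D)) * S ^ (-D) with hM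
  have hM0 : 0 ≤ M := by positivity
  have hpow : ∀ z : K, (∀ w : InfinitePlace K, t ≤ w z) → normR K z ^ (-s) ≤ M := by
    intro z hz
    have hN : t ^ D ≤ normR K z := by
      rw [normR_eq_prod, hD, Real.rpow_natCast, deg, ← InfinitePlace.sum_mult_eq,
        ← Finset.prod_pow_eq_pow_sum]
      exact Finset.prod_le_prod (fun w _ => by positivity)
        fun w _ => pow_le_pow_left₀ ht0.le (hz w) _
    calc normR K z ^ (-s) ≤ (t ^ D) ^ (-s) :=
          Real.rpow_le_rpow_of_nonpos (Real.rpow_pos_of_pos ht0 _) hN (by linarith)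
      _ = κ' ^ (-(D * s)) * S ^ (-(D * s)) := by
          rw [← Real.rpow_mul ht0.le, mul_neg, ht, Real.mul_rpow hκ'0.le (by linarith)]
      _ ≤ M := by
          rw [hM]
          refine mul_le_mul ?_ (Real.rpow_le_rpow_of_exponent_le hS1 (by nlinarith))
            (Real.rpow_nonneg (by linarith) _) (le_max_of_le_left zero_le_one)
          refine le_max_of_le_right ?_
          exact Real.rpow_le_rpow_of_exponent_ge hκ'0
            (by rw [hκ']; linarith [min_le_right κ 1]) (by nlinarith)
  have hMx := hpow x fun w => (hlow w).1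
  have hMy := hpow y fun w => (hlow w).2
  have hN : |normR K y ^ (-s) - normR K x ^ (-s)| ≤ M * (2 * (D * (E / S))) := by
    rw [Real.rpow_def_of_pos (normR_pos K hy0), Real.rpow_def_of_pos (normR_pos K hx0)]
    refine (abs_exp_sub_exp_le _ _).trans (mul_le_mul ?_ ?_ (abs_nonneg _) hM0)
    · rw [← Real.rpow_def_of_pos (normR_pos K hy0), ← Real.rpow_def_of_pos (normR_pos K hx0)]
      exact max_le hMy hMx
    · rw [← sub_mul, abs_mul, abs_neg, abs_of_pos (by linarith : (0 : ℝ) < s), mul_comm]
      exact mul_le_mul hs2 hlogN (abs_nonneg _) zero_le_two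
  have hfin : gs K s y - gs K s x = (weight K y - weight K x) * normR K y ^ (-s) +
      weight K x * (normR K y ^ (-s) - normR K x ^ (-s)) := by simp only [gs]; ring
  rw [hfin]
  refine (abs_add_le _ _).trans ?_
  have e1 : |(weight K y - weight K x) * normR K y ^ (-s)| ≤ CW * (D * ((E + E) / S)) * M := by
    rw [abs_mul, abs_of_nonneg (Real.rpow_nonneg (normR_nonneg K y) (-s))]
    exact mul_le_mul ((hlip y x).trans (mul_le_mul_of_nonneg_left hvec hCW)) hMy
      (Real.rpow_nonneg (abs_nonneg _) _) (by positivity)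
  have e2 : |weight K x * (normR K y ^ (-s) - normR K x ^ (-s))| ≤ M * (2 * (D * (E / S))) := by
    rw [abs_mul, abs_of_nonneg (weight_nonneg K x)]
    exact (mul_le_of_le_one_left (abs_nonneg _) (weight_le_one K x)).trans hN
  refine (add_le_add e1 e2).trans (le_of_eq ?_)
  have hS' : S ^ (-(D + 1)) = S ^ (-D) / S := by
    rw [neg_add, Real.rpow_add (by linarith), Real.rpow_neg_one, div_eq_mul_inv]
  rw [hS', hM]
  ring

theorem normR_int_ge_one {β : 𝓞 K} (hβ : β ≠ 0) : 1 ≤ normR K (β : K) := by
  rw [normR, ← Algebra.coe_norm_int]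
  simp only [Rat.cast_intCast]
  exact_mod_cast Int.one_le_abs (Algebra.norm_ne_zero_iff.mpr hβ)

theorem gs_int_le_one {s : ℝ} (hs : 0 < s) (β : 𝓞 K) : gs K s (β : K) ≤ 1 := by
  rcases eq_or_ne β 0 with rfl | hβ
  · simp [gs_zero K hs.ne']
  · calc gs K s (β : K) ≤ 1 * normR K (β : K) ^ (-s) :=
        mul_le_mul_of_nonneg_right (weight_le_one K _) (Real.rpow_nonneg (abs_nonneg _) _)
      _ ≤ 1 := by
        rw [one_mul]
        exact Real.rpow_le_one_of_one_le_of_nonpos (normR_int_ge_one K hβ) (by linarith)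

/-- Translation invariance of the lattice sum up to bounded error. -/
theorem exists_translate_bound (a : 𝓞 K) {m : ℕ} (hm : m ≠ 0) :
    ∃ C : ℝ, ∀ s : ℝ, 1 < s → s ≤ 2 →
      (Summable fun β : 𝓞 K => gs K s (β : K)) →
      Summable (fun β : 𝓞 K => gs K s ((a + m * β : 𝓞 K) : K)) ∧
      |(∑' β : 𝓞 K, gs K s ((a + m * β : 𝓞 K) : K)) -
        ((m : ℝ) ^ deg K) ^ (-s) * ∑' β : 𝓞 K, gs K s (β : K)| ≤ C := by
  obtain ⟨C0, R, hC0, hR, hpt⟩ := exists_pointwise K (a : K)
  set p : ℝ := -((deg K : ℝ) + 1) with hp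
  set C1 := max C0 (R ^ (-p)) with hC1
  set b : 𝓞 K → ℝ := fun β =>
    (C1 * (m : ℝ) ^ p) * size K (β : K) ^ p + if β = 0 then 1 else 0 with hb
  have hbsum : Summable b := ((summable_size K).mul_left _).add (hasSum_ite_eq 0 1).summable
  refine ⟨∑' β, b β, fun s hs1 hs2 hsum => ?_⟩
  set c := ((m : ℝ) ^ deg K) ^ (-s)
  have hfm : ∀ β : 𝓞 K, gs K s (((m : 𝓞 K) * β : 𝓞 K) : K) = c * gs K s (β : K) := fun β => by
    push_cast
    exact gs_natCast_mul K hm (by linarith) _
  have hle : ∀ β : 𝓞 K,
      |gs K s ((a + m * β : 𝓞 K) : K) - c * gs K s (β : K)| ≤ b β := by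
    intro β
    rw [← hfm]
    have hsz : size K (((m : 𝓞 K) * β : 𝓞 K) : K) = (m : ℝ) * size K (β : K) := by
      push_cast
      simp only [size, mixedEmbedding.norm_eq_sup'_normAtPlace, mixedEmbedding.normAtPlace_apply,
        map_mul, place_natCast]
      exact (Finset.mul₀_sup' (Nat.cast_nonneg m) _ _ _).symm
    rcases eq_or_ne β 0 with rfl | hβ
    · simp only [mul_zero, add_zero, map_zero, gs_zero K (by linarith : s ≠ 0), sub_zero, hb,
        if_true]
      rw [abs_of_nonneg (gs_nonneg K s _)]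
      exact (gs_int_le_one K (by linarith) a).trans (le_add_of_nonneg_left
        (mul_nonneg (by positivity) (Real.rpow_nonneg (norm_nonneg _) _)))
    simp only [hb, if_neg hβ, add_zero]
    rw [mul_assoc, ← Real.mul_rpow (Nat.cast_nonneg m)
      (size_nonneg K (β : K)), ← hsz]
    set x := (((m : 𝓞 K) * β : 𝓞 K) : K) with hx
    rcases le_or_gt R (size K x) with hR' | hR'
    · have := hpt s hs1 hs2 x hR'
      rw [hx] at this ⊢
      push_cast at this ⊢
      rw [add_comm ((a : K))]
      exact this.trans (mul_le_mul_of_nonneg_right (le_max_left _ _)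
        (Real.rpow_nonneg (norm_nonneg _) _))
    · have hpos : 0 < size K x := by
        rw [hsz]
        exact mul_pos (Nat.cast_pos.mpr (Nat.pos_of_ne_zero hm)) (norm_pos_iff.mpr
          ((map_ne_zero _).mpr (RingOfIntegers.coe_ne_zero_iff.mpr hβ)))
      have h1 : |gs K s ((a + m * β : 𝓞 K) : K) - gs K s x| ≤ 1 := by
        have := gs_int_le_one K (by linarith : 0 < s) (a + m * β)
        have := gs_int_le_one K (by linarith : 0 < s) ((m : 𝓞 K) * β)
        have := gs_nonneg K s ((a + m * β : 𝓞 K) : K)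
        have := gs_nonneg K s x
        rw [abs_sub_le_iff]
        constructor <;> linarith
      refine h1.trans ?_
      calc (1 : ℝ) = R ^ (-p) * R ^ p := by
            rw [← Real.rpow_add (by linarith), neg_add_cancel, Real.rpow_zero]
        _ ≤ C1 * size K x ^ p := mul_le_mul (le_max_right _ _)
            (Real.rpow_le_rpow_of_nonpos hpos hR'.le (by rw [hp]; have := deg_pos K; linarith))
            (Real.rpow_nonneg (by linarith) _) (le_max_of_le_left hC0)
  have hd : Summable fun β : 𝓞 K =>
      gs K s ((a + m * β : 𝓞 K) : K) - c * gs K s (β : K) :=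
    Summable.of_norm_bounded hbsum hle
  have hs' : Summable fun β : 𝓞 K => gs K s ((a + m * β : 𝓞 K) : K) :=
    (hd.add (hsum.mul_left c)).congr fun β => by ring
  refine ⟨hs', ?_⟩
  rw [← tsum_mul_left, ← hs'.tsum_sub (hsum.mul_left c)]
  refine tsum_of_norm_bounded (f := fun β : 𝓞 K =>
    gs K s ((a + m * β : 𝓞 K) : K) - c * gs K s (β : K)) hbsum.hasSum hle

end FLTAgent.DS.Cheb
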